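import Mathlib
import Fermat.Prelude.Def_GaloisRep_Adic

/-!
# Row S31, piece C (helper242): traces are locally constant modulo `m ^ n`

EXACT statement of `Skeleton.trace_congr_of_agree`:

```
theorem trace_congr_of_agree {A : Type} [CommRing A] [IsLocalRing A] (ρ : GaloisRepAdic A) (n : ℕ) :
    ∃ L : IntermediateField ℚ Qb, FiniteDimensional ℚ L ∧
      ∀ g g' : GQ, (∀ x ∈ L, g x = g' x) →
        ρ.trace g - ρ.trace g' ∈ IsLocalRing.maximalIdeal A ^ n
```

Proof: `L` is the field given by `GaloisActionIsAdicContinuous` at level `n`; if `g = g'` on `L` then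
`σ = g'⁻¹ g` fixes `L`, `ρ g - ρ g' = ρ g' ∘ (ρ σ - 1)` has image in `m ^ n • V`, and an endomorphism
of a finite free module with image in `I • V` has trace in `I`.
-/

set_option autoImplicit false

namespace Fermat.Agent.S31.H242

/-- `ℚ̄` (same abbreviation as `Fermat.Agent.S31.Qb`; this file does not import `S31/Defs`, so that
it can sit on main independently; the statement below is definitionally the skeleton one). -/
local notation "Qb" => AlgebraicClosure ℚ

/-- `Gal(ℚ̄/ℚ)`. -/
local notation "GQ" => (AlgebraicClosure ℚ ≃ₐ[ℚ] AlgebraicClosure ℚ)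

/-- Coordinates of an element of `I • ⊤` in a basis lie in `I`. -/
theorem repr_mem_of_mem_smul_top {R M ι : Type*} [CommRing R] [AddCommGroup M] [Module R M]
    (b : Module.Basis ι R M) (I : Ideal R) {x : M} (hx : x ∈ I • (⊤ : Submodule R M)) (i : ι) :
    b.repr x i ∈ I := by
  refine Submodule.smul_induction_on (p := fun x => b.repr x i ∈ I) hx ?_ ?_
  · intro a ha m _
    rw [map_smul, Finsupp.smul_apply, smul_eq_mul]
    exact I.mul_mem_right _ ha
  · intro x y hx hy
    rw [map_add, Finsupp.add_apply]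
    exact I.add_mem hx hy

/-- An endomorphism of a finite free module with image in `I • ⊤` has trace in `I`. -/
theorem trace_mem_of_forall_mem_smul_top {R M : Type*} [CommRing R] [AddCommGroup M] [Module R M]
    [Module.Free R M] [Module.Finite R M] (I : Ideal R) (f : Module.End R M)
    (hf : ∀ v : M, f v ∈ I • (⊤ : Submodule R M)) : LinearMap.trace R M f ∈ I := by
  classical
  let b := Module.Free.chooseBasis R M
  rw [LinearMap.trace_eq_matrix_trace R b f, Matrix.trace]
  refine I.sum_mem fun i _ => ?_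
  rw [Matrix.diag_apply, LinearMap.toMatrix_apply]
  exact repr_mem_of_mem_smul_top b I (hf (b i)) i

/-- A linear map sends `I • ⊤` into `I • ⊤`. -/
theorem map_mem_smul_top {R M : Type*} [CommRing R] [AddCommGroup M] [Module R M]
    (I : Ideal R) (f : Module.End R M) {x : M} (hx : x ∈ I • (⊤ : Submodule R M)) :
    f x ∈ I • (⊤ : Submodule R M) := by
  refine Submodule.smul_induction_on (p := fun x => f x ∈ I • (⊤ : Submodule R M)) hx ?_ ?_
  · intro a ha m _
    rw [map_smul]
    exact Submodule.smul_mem_smul ha Submodule.mem_top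
  · intro x y hx hy
    rw [map_add]
    exact Submodule.add_mem _ hx hy

/-- **Piece C** (`Skeleton.trace_congr_of_agree`, verbatim). -/
theorem trace_congr_of_agree {A : Type} [CommRing A] [IsLocalRing A] (ρ : GaloisRepAdic A)
    (n : ℕ) :
    ∃ L : IntermediateField ℚ Qb, FiniteDimensional ℚ L ∧
      ∀ g g' : GQ, (∀ x ∈ L, g x = g' x) →
        ρ.trace g - ρ.trace g' ∈ IsLocalRing.maximalIdeal A ^ n := by
  obtain ⟨L, hL, h⟩ := ρ.isAdicContinuous n
  refine ⟨L, hL, fun g g' hgg' => ?_⟩
  -- `σ = g'⁻¹ g` fixes `L`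
  have hσ : ∀ x ∈ L, (g'⁻¹ * g) x = x := by
    intro x hx
    rw [AlgEquiv.mul_apply, hgg' x hx]
    exact AlgEquiv.symm_apply_apply g' x
  have hg : g = g' * (g'⁻¹ * g) := by group
  have key : ∀ v : ρ.V, (ρ.ρ g - ρ.ρ g') v ∈
      (IsLocalRing.maximalIdeal A ^ n) • (⊤ : Submodule A ρ.V) := by
    intro v
    have h1 : (ρ.ρ g - ρ.ρ g') v = ρ.ρ g' (ρ.ρ (g'⁻¹ * g) v - v) := by
      conv_lhs => rw [hg]
      rw [map_mul, LinearMap.sub_apply, Module.End.mul_apply, map_sub]
    rw [h1]
    exact map_mem_smul_top _ (ρ.ρ g') (h (g'⁻¹ * g) hσ v)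
  have htr := trace_mem_of_forall_mem_smul_top (IsLocalRing.maximalIdeal A ^ n)
    (ρ.ρ g - ρ.ρ g') key
  rw [map_sub] at htr
  exact htr

end Fermat.Agent.S31.H242
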